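/-
The area of a right triangle; the letter to Carcavi (helper85).
-/
import Mathlib

/-!
# Fermat's right triangle theorem and the numbers 1 and 7

* `four_ne_four_add_sq`: `x⁴ = y⁴ + z²` has no solutions in non-zero rational numbers. This is the
  only theorem of which Fermat has left a complete proof (Observation XLV on Diophantus), by
  infinite descent.
* `area_ne_sq`, `area_ne_two_mul_sq`: the area of a right triangle with rational sides is neither
  a square nor twice a square.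
* `sq_eq_sq_of_four_add_four`: `x⁴ + y⁴ = 2 z²` only if `x² = y²`.
* `carcavi`: the only natural numbers `n` such that `n` and `n²` are both of the form `2 y² - 1`
  are `1` and `7` (Fermat, letter to Carcavi, August 1659; the first published proof is due to
  Genocchi).
-/

namespace Fermat.Agent.Cor.Ferm

lemma sq_mod (z : ℤ) : (z % 2 = 0 ∧ z ^ 2 % 4 = 0) ∨ (z % 2 = 1 ∧ z ^ 2 % 8 = 1) := by
  rcases Int.even_or_odd' z with ⟨k, hk | hk⟩
  · left
    rw [hk]
    refine ⟨by omega, ?_⟩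
    have : (2 * k) ^ 2 = 4 * (k ^ 2) := by ring
    omega
  · right
    rw [hk]
    refine ⟨by omega, ?_⟩
    obtain ⟨l, hl⟩ := Int.even_mul_succ_self k
    have : (2 * k + 1) ^ 2 = 4 * (k * (k + 1)) + 1 := by ring
    omega

/-- The parametrization of the primitive Pythagorean triples. -/
lemma pyth {x y z : ℤ} (h : x ^ 2 + y ^ 2 = z ^ 2) (hc : IsCoprime x y) (hx : x % 2 = 1)
    (hz : 0 < z) : ∃ m n : ℤ, x = m ^ 2 - n ^ 2 ∧ y = 2 * m * n ∧ z = m ^ 2 + n ^ 2 ∧
      IsCoprime m n ∧ (m % 2 = 0 ∧ n % 2 = 1 ∨ m % 2 = 1 ∧ n % 2 = 0) ∧ 0 ≤ m := by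
  have hP : PythagoreanTriple x y z := by
    unfold PythagoreanTriple; linarith
  obtain ⟨m, n, h1, h2, h3, h4, h5, h6⟩ :=
    hP.coprime_classification' (Int.isCoprime_iff_gcd_eq_one.1 hc) hx hz
  exact ⟨m, n, h1, h2, h3, Int.isCoprime_iff_gcd_eq_one.2 h4, h5, h6⟩

lemma exists_sq {a b c : ℤ} (h : IsCoprime a b) (e : a * b = c ^ 2) (ha : 0 < a) :
    ∃ r : ℤ, a = r ^ 2 := by
  obtain ⟨r, hr | hr⟩ := Int.sq_of_gcd_eq_one (Int.isCoprime_iff_gcd_eq_one.1 h) e
  · exact ⟨r, hr⟩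
  · nlinarith [sq_nonneg r]

lemma even_or_of_coprime {x y : ℤ} (h : IsCoprime x y) : x % 2 = 1 ∨ y % 2 = 1 := by
  by_contra hc
  push Not at hc
  obtain ⟨u, v, e⟩ := h
  obtain ⟨k, hk⟩ : ∃ k, x = 2 * k := ⟨x / 2, by omega⟩
  obtain ⟨l, hl⟩ : ∃ l, y = 2 * l := ⟨y / 2, by omega⟩
  rw [hk, hl] at e
  have : 2 * (u * k + v * l) = 1 := by linarith
  omega

/-- The second step of the descent. -/
lemma descent_aux {x s r : ℤ} (h : x ^ 2 = s ^ 4 + 4 * r ^ 4) (hc : IsCoprime (s ^ 2) (2 * r ^ 2))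
    (hs : s % 2 = 1) (hr : r ≠ 0) (hx : x ≠ 0) :
    ∃ c d : ℤ, IsCoprime c d ∧ d ≠ 0 ∧ c ^ 4 = d ^ 4 + s ^ 2 ∧ c.natAbs < x.natAbs := by
  have hpos : 0 < |x| := abs_pos.2 hx
  have hs2 : s ^ 2 % 2 = 1 := by
    rcases sq_mod s with ⟨h1, h2⟩ | ⟨h1, h2⟩ <;> omega
  obtain ⟨a, b, f1, f2, f3, hab, -, ha0⟩ := pyth (x := s ^ 2) (y := 2 * r ^ 2) (z := |x|)
    (by rw [sq_abs, h]; ring) hc hs2 hpos
  have hr2 : 0 < r ^ 2 := by positivity
  have f2' : a * b = r ^ 2 := by linarith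
  have hapos : 0 < a := by
    rcases ha0.lt_or_eq with h0 | h0
    · exact h0
    · rw [← h0, zero_mul] at f2'; omega
  have hbpos : 0 < b := by
    by_contra hb
    push Not at hb
    nlinarith [mul_nonneg hapos.le (neg_nonneg.2 hb)]
  obtain ⟨c, hcc⟩ := exists_sq hab f2' hapos
  obtain ⟨d, hdd⟩ := exists_sq hab.symm (by rw [mul_comm]; exact f2') hbpos
  have hcd : IsCoprime c d := by
    rw [hcc, hdd] at hab
    exact (IsCoprime.pow_iff two_pos two_pos).1 hab
  have hd0 : d ≠ 0 := by rintro rfl; simp at hdd; omega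
  refine ⟨c, d, hcd, hd0, ?_, ?_⟩
  · rw [f1, hcc, hdd]; ring
  · rw [Int.natAbs_lt_iff_sq_lt, ← sq_abs x, f3, ← hcc]
    have h1 : a < a ^ 2 + b ^ 2 := by nlinarith
    have h2 : a ^ 2 + b ^ 2 ≤ (a ^ 2 + b ^ 2) ^ 2 := by nlinarith
    linarith

/-- Fermat's descent for `x⁴ = y⁴ + z²`, coprime integers. -/
theorem no_coprime (N : ℕ) : ∀ x y z : ℤ, x.natAbs = N → IsCoprime x y → y ≠ 0 → z ≠ 0 →
    x ^ 4 ≠ y ^ 4 + z ^ 2 := by
  induction N using Nat.strong_induction_on with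
  | _ N ih =>
    intro x y z hN hc hy hz h
    have hy4 : 0 < y ^ 4 := by positivity
    have hz2 : 0 < z ^ 2 := by positivity
    have hx0 : x ≠ 0 := by
      rintro rfl
      norm_num at h
      linarith
    have hx2 : 0 < x ^ 2 := by positivity
    have hxo : x % 2 = 1 := by
      by_contra hx
      have hyo : y % 2 = 1 := (even_or_of_coprime hc).resolve_left hx
      have e1 : (x ^ 2) ^ 2 = (y ^ 2) ^ 2 + z ^ 2 := by linarith [h]
      have m1 := sq_mod x
      have m2 := sq_mod (x ^ 2)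
      have m3 := sq_mod y
      have m4 := sq_mod (y ^ 2)
      have m5 := sq_mod z
      omega
    have hzy : IsCoprime z y := by
      have h1 : IsCoprime (x ^ 4) y := hc.pow_left
      have h2 : z ^ 2 = x ^ 4 + y * (-y ^ 3) := by rw [h]; ring
      have h3 : IsCoprime (z ^ 2) y := by rw [h2]; exact IsCoprime.add_mul_left_left h1 _
      exact (IsCoprime.pow_left_iff two_pos).1 h3
    by_cases hyo : y % 2 = 1
    · have hy2 : y ^ 2 % 2 = 1 := by
        rcases sq_mod y with ⟨h1, h2⟩ | ⟨h1, h2⟩ <;> omega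
      obtain ⟨m, n, e1, e2, e3, hmn, -, -⟩ := pyth (x := y ^ 2) (y := z) (z := x ^ 2)
        (by linarith [h]) hzy.symm.pow_left hy2 hx2
      have hn0 : n ≠ 0 := by rintro rfl; apply hz; rw [e2]; ring
      refine ih m.natAbs ?_ m n (x * y) rfl hmn hn0 (mul_ne_zero hx0 hy) ?_
      · rw [← hN, Int.natAbs_lt_iff_sq_lt, e3]
        have : 0 < n ^ 2 := by positivity
        linarith
      · rw [mul_pow, e1, e3]; ring
    · have hye : y % 2 = 0 := by omega
      have hzo : z % 2 = 1 := (even_or_of_coprime hzy).resolve_right hyo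
      obtain ⟨m, n, e1, e2, e3, hmn, hpar, hm0⟩ := pyth (x := z) (y := y ^ 2) (z := x ^ 2)
        (by linarith [h]) hzy.pow_right hzo hx2
      obtain ⟨k, hk⟩ : ∃ k, y = 2 * k := ⟨y / 2, by omega⟩
      have hk0 : k ≠ 0 := by rintro rfl; apply hy; rw [hk]; ring
      have hk2 : 0 < k ^ 2 := by positivity
      have e2' : m * n = 2 * k ^ 2 := by
        rw [hk] at e2; linarith
      have hm : 0 < m := by
        rcases hm0.lt_or_eq with h0 | h0
        · exact h0
        · rw [← h0, zero_mul] at e2'; omega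
      have hn : 0 < n := by
        by_contra hb
        push Not at hb
        nlinarith [mul_nonneg hm.le (neg_nonneg.2 hb)]
      obtain ⟨r, s, g1, g2, g3, g4⟩ : ∃ r s : ℤ, x ^ 2 = s ^ 4 + 4 * r ^ 4 ∧
          IsCoprime (s ^ 2) (2 * r ^ 2) ∧ s % 2 = 1 ∧ r ≠ 0 := by
        rcases hpar with ⟨p1, p2⟩ | ⟨p1, p2⟩
        · obtain ⟨t, ht⟩ : ∃ t, m = 2 * t := ⟨m / 2, by omega⟩
          have ht1 : t * n = k ^ 2 := by rw [ht] at e2'; linarith
          have htn : IsCoprime t n := by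
            rw [ht] at hmn; exact hmn.of_mul_left_right
          obtain ⟨r, hr⟩ := exists_sq htn ht1 (by omega)
          obtain ⟨s, hs⟩ := exists_sq htn.symm (by rw [mul_comm]; exact ht1) hn
          refine ⟨r, s, ?_, ?_, ?_, ?_⟩
          · rw [e3, ht, hr, hs]; ring
          · rw [← hr, ← hs, ← ht]; exact hmn.symm
          · rcases sq_mod s with ⟨h1, h2⟩ | ⟨h1, h2⟩
            · omega
            · exact h1
          · rintro rfl; simp at hr; omega
        · obtain ⟨t, ht⟩ : ∃ t, n = 2 * t := ⟨n / 2, by omega⟩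
          have ht1 : t * m = k ^ 2 := by rw [ht] at e2'; linarith
          have htm : IsCoprime t m := by
            rw [ht] at hmn; exact hmn.symm.of_mul_left_right
          obtain ⟨r, hr⟩ := exists_sq htm ht1 (by omega)
          obtain ⟨s, hs⟩ := exists_sq htm.symm (by rw [mul_comm]; exact ht1) hm
          refine ⟨r, s, ?_, ?_, ?_, ?_⟩
          · rw [e3, ht, hr, hs]; ring
          · rw [← hr, ← hs, ← ht]; exact hmn
          · rcases sq_mod s with ⟨h1, h2⟩ | ⟨h1, h2⟩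
            · omega
            · exact h1
          · rintro rfl; simp at hr; omega
      obtain ⟨c, d, i1, i2, i3, i4⟩ := descent_aux g1 g2 g3 g4 hx0
      have hs0 : s ≠ 0 := by rintro rfl; simp at g3
      exact ih c.natAbs (by rw [← hN]; exact i4) c d s rfl i1 i2 hs0 i3

/-- `x⁴ = y⁴ + z²` has no solutions in integers with `y, z ≠ 0`. -/
theorem four_ne_int {x y z : ℤ} (hy : y ≠ 0) (hz : z ≠ 0) : x ^ 4 ≠ y ^ 4 + z ^ 2 := by
  intro h
  have hg : 0 < Int.gcd x y := Int.gcd_pos_of_ne_zero_right x hy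
  obtain ⟨a, b, hab, ha, hb⟩ := Int.exists_gcd_one hg
  set g : ℤ := (Int.gcd x y : ℤ) with hgdef
  have hg0 : g ≠ 0 := by rw [hgdef]; exact_mod_cast hg.ne'
  have h1 : (g ^ 2) ^ 2 * (a ^ 4 - b ^ 4) = z ^ 2 := by
    have : x ^ 4 - y ^ 4 = z ^ 2 := by linarith
    rw [← this, ha, hb]; ring
  have h2 : g ^ 2 ∣ z := by
    rw [← Int.pow_dvd_pow_iff two_ne_zero]
    exact ⟨_, h1.symm⟩
  obtain ⟨w, hw⟩ := h2
  have h3 : a ^ 4 = b ^ 4 + w ^ 2 := by
    have h4 : (g ^ 2) ^ 2 * (a ^ 4 - b ^ 4) = (g ^ 2) ^ 2 * w ^ 2 := by rw [h1, hw]; ring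
    have h5 := mul_left_cancel₀ (by positivity : (g ^ 2) ^ 2 ≠ 0) h4
    linarith
  refine no_coprime a.natAbs a b w rfl (Int.isCoprime_iff_gcd_eq_one.2 hab) ?_ ?_ h3
  · rintro rfl; apply hy; rw [hb]; ring
  · rintro rfl; apply hz; rw [hw]; ring

/-- A common denominator. -/
lemma exists_den (x y z : ℚ) : ∃ (d : ℤ) (a b c : ℤ), d ≠ 0 ∧ x * d = a ∧ y * d = b ∧
    z * d = c := by
  refine ⟨(x.den * y.den * z.den : ℕ), x.num * y.den * z.den, y.num * x.den * z.den,
    z.num * x.den * y.den, ?_, ?_, ?_, ?_⟩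
  · have h1 := x.den_ne_zero
    have h2 := y.den_ne_zero
    have h3 := z.den_ne_zero
    exact_mod_cast mul_ne_zero (mul_ne_zero h1 h2) h3
  · push_cast
    have := Rat.mul_den_eq_num x
    linear_combination (y.den * z.den : ℚ) * this
  · push_cast
    have := Rat.mul_den_eq_num y
    linear_combination (x.den * z.den : ℚ) * this
  · push_cast
    have := Rat.mul_den_eq_num z
    linear_combination (x.den * y.den : ℚ) * this

/-- **Fermat**: `x⁴ = y⁴ + z²` has no solutions in rational numbers with `y, z ≠ 0`. -/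
theorem four_ne_four_add_sq {x y z : ℚ} (hy : y ≠ 0) (hz : z ≠ 0) : x ^ 4 ≠ y ^ 4 + z ^ 2 := by
  intro h
  obtain ⟨d, a, b, c, hd, ha, hb, hc⟩ := exists_den x y z
  have hdq : (d : ℚ) ≠ 0 := by exact_mod_cast hd
  refine four_ne_int (x := a) (y := b) (z := c * d) ?_ ?_ ?_
  · rintro rfl
    rw [Int.cast_zero] at hb
    exact (mul_ne_zero hy hdq) hb
  · apply mul_ne_zero _ hd
    rintro rfl
    rw [Int.cast_zero] at hc
    exact (mul_ne_zero hz hdq) hc
  · have : ((a : ℤ) : ℚ) ^ 4 = (b : ℚ) ^ 4 + ((c : ℚ) * d) ^ 2 := by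
      rw [← ha, ← hb, ← hc]
      linear_combination (d : ℚ) ^ 4 * h
    exact_mod_cast this

lemma two_mul_sq_ne {a c : ℚ} (ha : a ≠ 0) : 2 * a ^ 2 ≠ c ^ 2 := by
  intro h
  have h1 : (c / a) ^ 2 = 2 := by field_simp; linarith
  have h2 : IsSquare (2 : ℚ) := ⟨c / a, by rw [← h1]; ring⟩
  rw [Rat.isSquare_iff] at h2
  obtain ⟨⟨r, hr⟩, -⟩ := h2
  simp only [Rat.num_ofNat] at hr
  have : r ≤ 1 := by nlinarith
  have : -1 ≤ r := by nlinarith
  interval_cases r <;> omega

/-- **Fermat's right triangle theorem**: the area of a right triangle with rational sides is not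
the square of a rational number (`1` is not a congruent number). -/
theorem area_ne_sq {a b c t : ℚ} (ha : a ≠ 0) (hb : b ≠ 0) (h : a ^ 2 + b ^ 2 = c ^ 2) :
    a * b / 2 ≠ t ^ 2 := by
  intro ht
  have ht0 : 2 * t ≠ 0 := by
    intro h0
    have : t = 0 := by linarith
    rw [this] at ht
    have : a * b = 0 := by linarith
    rcases mul_eq_zero.1 this with h | h
    · exact ha h
    · exact hb h
  by_cases hz : a ^ 2 - b ^ 2 = 0
  · exact two_mul_sq_ne (c := c) ha (by linarith)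
  · apply four_ne_four_add_sq (x := c) ht0 hz
    have e1 : a * b = 2 * t ^ 2 := by linarith
    linear_combination (-(c ^ 2 + a ^ 2 + b ^ 2)) * h + (4 * (a * b + 2 * t ^ 2)) * e1

/-- The area of a right triangle with rational sides is not twice a square (`2` is not a congruent
number). -/
theorem area_ne_two_mul_sq {a b c t : ℚ} (ha : a ≠ 0) (hb : b ≠ 0) (h : a ^ 2 + b ^ 2 = c ^ 2) :
    a * b / 2 ≠ 2 * t ^ 2 := by
  intro ht
  have hc0 : c ≠ 0 := by
    rintro rfl
    have : 0 < a ^ 2 := by positivity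
    nlinarith [sq_nonneg b]
  have ht0 : t ≠ 0 := by
    rintro rfl
    have : a * b = 0 := by linarith
    rcases mul_eq_zero.1 this with h | h
    · exact ha h
    · exact hb h
  by_cases hz : a ^ 2 - b ^ 2 = 0
  · exact two_mul_sq_ne (c := c) ha (by linarith)
  · -- `z⁴ + (2 c u)⁴ = (c⁴ + 4 u⁴)²` with `u = 2 t`, `z² = c⁴ - 4 u⁴`
    set z := a ^ 2 - b ^ 2 with hzdef
    have e1 : a * b = 4 * t ^ 2 := by linarith
    have e2 : z ^ 2 = c ^ 4 - 4 * (2 * t) ^ 4 := by
      rw [hzdef]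
      linear_combination (c ^ 2 + a ^ 2 + b ^ 2) * h - (4 * (a * b + 4 * t ^ 2)) * e1
    have e3 : z ^ 4 + (2 * c * (2 * t)) ^ 4 = (c ^ 4 + 4 * (2 * t) ^ 4) ^ 2 := by
      linear_combination (z ^ 2 + c ^ 4 - 4 * (2 * t) ^ 4) * e2
    obtain ⟨d, p, q, r, hd, hp, hq, hr⟩ := exists_den z (2 * c * (2 * t))
      (c ^ 4 + 4 * (2 * t) ^ 4)
    have hdq : (d : ℚ) ≠ 0 := by exact_mod_cast hd
    have hq0 : 2 * c * (2 * t) ≠ 0 := by positivity
    refine not_fermat_42 (a := p) (b := q) (c := r * d) ?_ ?_ ?_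
    · rintro rfl
      rw [Int.cast_zero] at hp
      exact (mul_ne_zero hz hdq) hp
    · rintro rfl
      rw [Int.cast_zero] at hq
      exact (mul_ne_zero hq0 hdq) hq
    · have : ((p : ℤ) : ℚ) ^ 4 + (q : ℚ) ^ 4 = ((r : ℚ) * d) ^ 2 := by
        rw [← hp, ← hq, ← hr]
        linear_combination (d : ℚ) ^ 4 * e3
      exact_mod_cast this

/-- `x⁴ + y⁴ = 2 z²` has only the solutions with `x² = y²`. -/
theorem sq_eq_sq_of_four_add_four {x y z : ℚ} (h : x ^ 4 + y ^ 4 = 2 * z ^ 2) : x ^ 2 = y ^ 2 := by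
  by_cases hx : x = 0
  · rw [hx] at h ⊢
    by_contra hne
    have hy : y ≠ 0 := by rintro rfl; exact hne rfl
    have hz : z ≠ 0 := by
      rintro rfl
      have : 0 < y ^ 4 := by positivity
      linarith
    exact two_mul_sq_ne (c := y ^ 2) hz (by linarith)
  by_cases hy : y = 0
  · rw [hy] at h ⊢
    exfalso
    have hz : z ≠ 0 := by
      rintro rfl
      have : 0 < x ^ 4 := by positivity
      linarith
    exact two_mul_sq_ne (c := x ^ 2) hz (by linarith)
  by_contra hne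
  have hd : (x ^ 4 - y ^ 4) / 2 ≠ 0 := by
    intro h0
    have h1 : (x ^ 2 - y ^ 2) * (x ^ 2 + y ^ 2) = 0 := by linarith
    have h2 : 0 < x ^ 2 + y ^ 2 := by positivity
    rcases mul_eq_zero.1 h1 with h3 | h3
    · exact hne (by linarith)
    · exact h2.ne' h3
  apply four_ne_four_add_sq (x := z) (mul_ne_zero hx hy) hd
  linear_combination (-(2 * z ^ 2 + x ^ 4 + y ^ 4) / 4) * h

/-- `a⁴ - 2 n² = 1` only for `n = 0`. -/
lemma four_sub_two_sq {a n : ℤ} (h : a ^ 4 - 2 * n ^ 2 = 1) : n = 0 := by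
  have hao : a % 2 = 1 := by
    have m1 := sq_mod a
    have m2 := sq_mod (a ^ 2)
    have : (a ^ 2) ^ 2 = 2 * n ^ 2 + 1 := by linarith
    omega
  have ha8 : a ^ 2 % 8 = 1 := by
    rcases sq_mod a with ⟨h1, h2⟩ | ⟨h1, h2⟩
    · omega
    · exact h2
  obtain ⟨u, hu⟩ : ∃ u, a ^ 2 = 2 * u - 1 := ⟨(a ^ 2 + 1) / 2, by omega⟩
  have ha2 : 0 < a ^ 2 := by
    have : a ≠ 0 := by rintro rfl; simp at hao
    positivity
  have h1 : u * (a ^ 2 - 1) = n ^ 2 := by
    have : (a ^ 2 + 1) * (a ^ 2 - 1) = 2 * n ^ 2 := by linarith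
    have h2 : a ^ 2 + 1 = 2 * u := by linarith
    rw [h2] at this
    linarith
  have hco : IsCoprime u (a ^ 2 - 1) := by
    have h3 : a ^ 2 - 1 = 2 * (u - 1) := by linarith
    rw [h3]
    apply IsCoprime.mul_right
    · have : u % 2 = 1 := by omega
      exact ⟨1, -(u / 2), by omega⟩
    · exact ⟨1, -1, by ring⟩
  rcases eq_or_ne n 0 with h0 | h0
  · exact h0
  exfalso
  have hn2 : 0 < n ^ 2 := by positivity
  have hpos : 0 < a ^ 2 - 1 := by
    by_contra hc
    push Not at hc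
    nlinarith [mul_nonneg (by linarith : (0 : ℤ) ≤ u) (neg_nonneg.2 hc)]
  obtain ⟨e, he⟩ := exists_sq hco.symm (by rw [mul_comm]; exact h1) hpos
  have hle : |e| < |a| := by
    rw [← sq_lt_sq, ← he]; linarith
  have hle2 : |e| + 1 ≤ |a| := hle
  have : (|e| + 1) ^ 2 ≤ |a| ^ 2 := by
    apply pow_le_pow_left₀ (by positivity) hle2
  rw [sq_abs] at this
  have h5 : |e| ^ 2 = e ^ 2 := sq_abs e
  have h6 : |e| = 0 := by nlinarith [abs_nonneg e]
  rw [abs_eq_zero] at h6
  rw [h6] at he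
  norm_num at he
  linarith

/-- The equation `x = 2 y² - 1`, `x² = 2 z² - 1` in integers. -/
theorem carcavi_int {x y z : ℤ} (h1 : x = 2 * y ^ 2 - 1) (h2 : x ^ 2 = 2 * z ^ 2 - 1) :
    x = -1 ∨ x = 1 ∨ x = 7 := by
  have hz : z ^ 2 = (y ^ 2) ^ 2 + (y ^ 2 - 1) ^ 2 := by
    rw [h1] at h2; linarith
  have hz0 : z ≠ 0 := by
    rintro rfl
    have : 0 ≤ (y ^ 2) ^ 2 := by positivity
    have : 0 ≤ (y ^ 2 - 1) ^ 2 := by positivity
    nlinarith
  have hzp : 0 < |z| := abs_pos.2 hz0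
  have hco : IsCoprime (y ^ 2) (y ^ 2 - 1) := ⟨1, -1, by ring⟩
  rcases sq_mod y with ⟨p1, p2⟩ | ⟨p1, p2⟩
  · -- y even
    rcases eq_or_ne y 0 with h0 | h0
    · left; rw [h1, h0]; norm_num
    obtain ⟨m, n, e1, e2, e3, hmn, hpar, hm0⟩ := pyth (x := y ^ 2 - 1) (y := y ^ 2) (z := |z|)
      (by rw [sq_abs, hz]; ring) hco.symm (by omega) hzp
    have hy2 : 0 < y ^ 2 := by positivity
    obtain ⟨k, hk⟩ : ∃ k, y = 2 * k := ⟨y / 2, by omega⟩
    have hk0 : k ≠ 0 := by rintro rfl; apply h0; rw [hk]; ring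
    have hk2 : 0 < k ^ 2 := by positivity
    have e2' : m * n = 2 * k ^ 2 := by rw [hk] at e2; linarith
    have hm : 0 < m := by
      rcases hm0.lt_or_eq with h0 | h0
      · exact h0
      · rw [← h0, zero_mul] at e2'; omega
    have hn : 0 < n := by
      by_contra hb
      push Not at hb
      nlinarith [mul_nonneg hm.le (neg_nonneg.2 hb)]
    have e4 : (m + n) ^ 2 - 2 * m ^ 2 = 1 := by linarith
    rcases hpar with ⟨q1, q2⟩ | ⟨q1, q2⟩
    · obtain ⟨t, ht⟩ : ∃ t, m = 2 * t := ⟨m / 2, by omega⟩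
      have ht1 : t * n = k ^ 2 := by rw [ht] at e2'; linarith
      have htn : IsCoprime t n := by
        rw [ht] at hmn; exact hmn.of_mul_left_right
      obtain ⟨r, hr⟩ := exists_sq htn ht1 (by omega)
      obtain ⟨s, hs⟩ := exists_sq htn.symm (by rw [mul_comm]; exact ht1) hn
      -- (m + n)² = 1 + 8 r⁴
      obtain ⟨w, hw⟩ : ∃ w, m + n = 2 * w + 1 := ⟨(m + n) / 2, by omega⟩
      have hw0 : 0 < w := by omega
      have e5 : w * (w + 1) = 2 * (r ^ 2) ^ 2 := by
        rw [hw, ht, hr] at e4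
        nlinarith
      have hr0 : 0 < r ^ 2 := by omega
      rcases Int.emod_two_eq_zero_or_one w with hw2 | hw2
      · obtain ⟨v, hv⟩ : ∃ v, w = 2 * v := ⟨w / 2, by omega⟩
        have e6 : v * (w + 1) = (r ^ 2) ^ 2 := by
          rw [hv] at e5 ⊢; linarith
        have hvw : IsCoprime v (w + 1) := ⟨-2, 1, by rw [hv]; ring⟩
        obtain ⟨c, hc⟩ := exists_sq hvw e6 (by omega)
        obtain ⟨d, hd⟩ := exists_sq hvw.symm (by rw [mul_comm]; exact e6) (by omega)
        -- c² d² = (r²)², c d = ± r²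
        have hcd : (c * d) ^ 2 = (r ^ 2) ^ 2 := by rw [mul_pow, ← hc, ← hd, e6]
        have hcdc : IsCoprime c d := by
          rw [hc, hd] at hvw
          exact (IsCoprime.pow_iff two_pos two_pos).1 hvw
        have hcd2 : |c| * |d| = r ^ 2 := by
          rw [← abs_mul]
          have := sq_eq_sq_iff_abs_eq_abs (c * d) (r ^ 2) |>.1 hcd
          rw [this, abs_of_pos hr0]
        have hcabs : IsCoprime |c| |d| := hcdc.abs_abs
        have hc0 : c ≠ 0 := by rintro rfl; simp at hc; omega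
        have hd0 : d ≠ 0 := by rintro rfl; simp at hd; omega
        obtain ⟨c', hc'⟩ := exists_sq hcabs hcd2 (abs_pos.2 hc0)
        obtain ⟨d', hd'⟩ := exists_sq hcabs.symm (by rw [mul_comm]; exact hcd2) (abs_pos.2 hd0)
        -- d'⁴ - 2 c'⁴ = 1
        have e7 : d' ^ 4 - 2 * (c' ^ 2) ^ 2 = 1 := by
          have h3 : c ^ 2 = (c' ^ 2) ^ 2 := by rw [← hc', sq_abs]
          have h4 : d ^ 2 = (d' ^ 2) ^ 2 := by rw [← hd', sq_abs]
          have : w + 1 = (d' ^ 2) ^ 2 := by rw [hd, h4]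
          have h6 : v = (c' ^ 2) ^ 2 := by rw [hc, h3]
          rw [hv, h6] at this
          linarith
        have := four_sub_two_sq e7
        exfalso
        apply hc0
        rw [← abs_eq_zero, hc', this]
      · obtain ⟨v, hv⟩ : ∃ v, w + 1 = 2 * v := ⟨(w + 1) / 2, by omega⟩
        have e6 : v * w = (r ^ 2) ^ 2 := by
          rw [hv] at e5; linarith
        have hvw : IsCoprime v w := ⟨2, -1, by linarith⟩
        obtain ⟨c, hc⟩ := exists_sq hvw e6 (by omega)
        obtain ⟨d, hd⟩ := exists_sq hvw.symm (by rw [mul_comm]; exact e6) (by omega)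
        have hcd : (c * d) ^ 2 = (r ^ 2) ^ 2 := by rw [mul_pow, ← hc, ← hd, e6]
        have hcdc : IsCoprime c d := by
          rw [hc, hd] at hvw
          exact (IsCoprime.pow_iff two_pos two_pos).1 hvw
        have hcd2 : |c| * |d| = r ^ 2 := by
          rw [← abs_mul]
          have := sq_eq_sq_iff_abs_eq_abs (c * d) (r ^ 2) |>.1 hcd
          rw [this, abs_of_pos hr0]
        have hcabs : IsCoprime |c| |d| := hcdc.abs_abs
        have hc0 : c ≠ 0 := by rintro rfl; simp at hc; omega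
        have hd0 : d ≠ 0 := by rintro rfl; simp at hd; omega
        obtain ⟨c', hc'⟩ := exists_sq hcabs hcd2 (abs_pos.2 hc0)
        obtain ⟨d', hd'⟩ := exists_sq hcabs.symm (by rw [mul_comm]; exact hcd2) (abs_pos.2 hd0)
        have h3 : c ^ 2 = (c' ^ 2) ^ 2 := by rw [← hc', sq_abs]
        have h4 : d ^ 2 = (d' ^ 2) ^ 2 := by rw [← hd', sq_abs]
        -- d'⁴ + 1 = 2 c'⁴
        have e7 : (d' : ℚ) ^ 4 + 1 ^ 4 = 2 * ((c' : ℚ) ^ 2) ^ 2 := by
          have : w + 1 = 2 * (c' ^ 2) ^ 2 := by rw [hv, hc, h3]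
          have h6 : w = (d' ^ 2) ^ 2 := by rw [hd, h4]
          rw [h6] at this
          have h7 : ((d' ^ 2) ^ 2 + 1 : ℚ) = 2 * (c' ^ 2) ^ 2 := by exact_mod_cast this
          linarith
        have e8 := sq_eq_sq_of_four_add_four e7
        have e9 : d' ^ 2 = 1 := by
          have : ((d' : ℚ)) ^ 2 = 1 := by rw [e8]; norm_num
          exact_mod_cast this
        have hw1 : w = 1 := by rw [hd, h4, e9]; norm_num
        have hmn3 : m + n = 3 := by rw [hw, hw1]; norm_num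
        have hm2 : m = 2 := by omega
        have hn1 : n = 1 := by omega
        right; right
        rw [h1, e2, hm2, hn1]; norm_num
    · -- m odd, n even: impossible mod 8
      exfalso
      have m1 := sq_mod (m + n)
      have m2 := sq_mod m
      omega
  · -- y odd
    obtain ⟨m, n, e1, e2, e3, hmn, hpar, hm0⟩ := pyth (x := y ^ 2) (y := y ^ 2 - 1) (z := |z|)
      (by rw [sq_abs, hz]) hco (by omega) hzp
    have hy0 : y ≠ 0 := by rintro rfl; simp at p1
    have hy2 : 0 < y ^ 2 := by positivity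
    have e4 : (m - n) ^ 2 - 2 * n ^ 2 = 1 := by linarith
    have e5 : (m - n) * (m + n) = y ^ 2 := by rw [e1]; ring
    have hco2 : IsCoprime (m - n) (m + n) := by
      have hodd : (m + n) % 2 = 1 := by omega
      have h3 : m - n = 2 * m + (m + n) * (-1) := by ring
      have h4 : IsCoprime (2 * m) (m + n) := by
        apply IsCoprime.mul_left
        · exact ⟨-((m + n) / 2), 1, by omega⟩
        · have := hmn.symm.add_mul_left_left 1
          rw [mul_one, add_comm] at this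
          exact this.symm
      rw [h3]
      exact h4.add_mul_left_left (-1)
    obtain ⟨a, ha | ha⟩ := Int.sq_of_gcd_eq_one (Int.isCoprime_iff_gcd_eq_one.1 hco2) e5
    · have e6 : a ^ 4 - 2 * n ^ 2 = 1 := by rw [ha] at e4; linarith
      have hn0 := four_sub_two_sq e6
      right; left
      have : y ^ 2 - 1 = 0 := by rw [e2, hn0]; ring
      linarith
    · have e6 : a ^ 4 - 2 * n ^ 2 = 1 := by rw [ha] at e4; linarith
      have hn0 := four_sub_two_sq e6
      right; left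
      have : y ^ 2 - 1 = 0 := by rw [e2, hn0]; ring
      linarith

/-- **Fermat, letter to Carcavi (1659)**: the only natural numbers `n` such that `n` and `n²` are
both of the form `2 y² - 1` are `1` and `7`. -/
theorem carcavi (n : ℕ) : ((∃ y : ℕ, n + 1 = 2 * y ^ 2) ∧ ∃ z : ℕ, n ^ 2 + 1 = 2 * z ^ 2) ↔
    n = 1 ∨ n = 7 := by
  constructor
  · rintro ⟨⟨y, hy⟩, ⟨z, hz⟩⟩
    have h1 : (n : ℤ) = 2 * (y : ℤ) ^ 2 - 1 := by
      have : ((n : ℤ) + 1) = 2 * (y : ℤ) ^ 2 := by exact_mod_cast hy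
      linarith
    have h2 : (n : ℤ) ^ 2 = 2 * (z : ℤ) ^ 2 - 1 := by
      have : ((n : ℤ) ^ 2 + 1) = 2 * (z : ℤ) ^ 2 := by exact_mod_cast hz
      linarith
    have := carcavi_int h1 h2
    omega
  · rintro (rfl | rfl)
    · exact ⟨⟨1, rfl⟩, ⟨1, rfl⟩⟩
    · exact ⟨⟨2, rfl⟩, ⟨5, rfl⟩⟩

end Fermat.Agent.Cor.Ferm
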