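/-
Four squares in arithmetic progression (helper85).
-/
import Fermat.Agent.Corollaries.Ferm.Quartic

/-!
# There are no four different squares in arithmetic progression

`euler_quartic` (Euler): rational solutions of `x⁴ - x² y² + y⁴ = z²` have `x y = 0` or `x² = y²`.

`four_squares` (stated by Fermat in a letter to Frenicle, 1640; proved by Euler): four squares of
rational numbers in arithmetic progression are equal.

Descent: for coprime `x, y` with `y` even and `x⁴ - x² y² + y⁴ = z²` the Pythagorean triple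
`(x² - y², x y, z)` leads to `a, d` with `a² + d²` and `a² + 4 d²` squares, `0 < |d| < |x y|`, and the
parametrization of the second one gives `t w = d` with `t⁴ - t² w² + w⁴ = a² + d²`.
-/

namespace Fermat.Agent.Cor.Ferm

/-- If `a² + d²` and `a² + 4 d²` are squares, `a` odd and coprime to `d`, then `d = t w` with
`t⁴ - t² w² + w⁴ = a² + d²`. -/
lemma exists_of_two {a b c d : ℤ} (hc : c ^ 2 = a ^ 2 + d ^ 2) (hb : b ^ 2 = a ^ 2 + 4 * d ^ 2)
    (had : IsCoprime a d) (ha : a % 2 = 1) :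
    ∃ t w : ℤ, t * w = d ∧ IsCoprime t w ∧ t ^ 4 - t ^ 2 * w ^ 2 + w ^ 4 = c ^ 2 := by
  have hb0 : b ≠ 0 := by
    rintro rfl
    have h1 : 0 ≤ d ^ 2 := by positivity
    have h2 : a ≠ 0 := by rintro rfl; simp at ha
    have h3 : 0 < a ^ 2 := by positivity
    linarith
  have ha2 : IsCoprime a 2 := ⟨1, -(a / 2), by omega⟩
  obtain ⟨t, w, e1, e2, -, e4, -, -⟩ := pyth (x := a) (y := 2 * d) (z := |b|)
    (by rw [sq_abs, hb]; ring) (ha2.mul_right had) ha (abs_pos.2 hb0)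
  have e5 : t * w = d := by linarith
  refine ⟨t, w, e5, e4, ?_⟩
  rw [hc, e1, ← e5]; ring

/-- One step of the descent for `x⁴ - x² y² + y⁴ = z²`, `x` odd and `y` even. -/
lemma euler_step {x y z : ℤ} (h : x ^ 4 - x ^ 2 * y ^ 2 + y ^ 4 = z ^ 2) (hc : IsCoprime x y)
    (hx : x % 2 = 1) (hy : y % 2 = 0) (hy0 : y ≠ 0) :
    ∃ t w c : ℤ, IsCoprime t w ∧ t * w ≠ 0 ∧ t * w % 2 = 0 ∧
      (t * w).natAbs < (x * y).natAbs ∧ t ^ 4 - t ^ 2 * w ^ 2 + w ^ 4 = c ^ 2 := by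
  have hx0 : x ≠ 0 := by rintro rfl; simp at hx
  have hz0 : z ≠ 0 := by
    rintro rfl
    have h1 : x ^ 4 - x ^ 2 * y ^ 2 + y ^ 4 = (x ^ 2 - y ^ 2) ^ 2 + x ^ 2 * y ^ 2 := by ring
    have h2 : 0 < x ^ 2 * y ^ 2 := by positivity
    have h3 : 0 ≤ (x ^ 2 - y ^ 2) ^ 2 := by positivity
    rw [h1] at h
    linarith
  obtain ⟨y', hy'⟩ : ∃ y', y = 2 * y' := ⟨y / 2, by omega⟩
  have hy'0 : y' ≠ 0 := by rintro rfl; apply hy0; rw [hy']; ring
  have m1 := sq_mod x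
  have m2 := sq_mod y
  have hco : IsCoprime (x ^ 2 - y ^ 2) (x * y) := by
    have h1 : IsCoprime (x ^ 2) (y ^ 2) := (IsCoprime.pow_iff two_pos two_pos).2 hc
    have h2 : IsCoprime (x ^ 2 - y ^ 2) x := by
      have h3 : IsCoprime (y ^ 2) x := (IsCoprime.pow_left_iff two_pos).2 hc.symm
      have h4 : IsCoprime (-(y ^ 2)) x := h3.neg_left
      have h5 : x ^ 2 - y ^ 2 = -(y ^ 2) + x * x := by ring
      rw [h5]
      exact h4.add_mul_left_left x
    have h2' : IsCoprime (x ^ 2 - y ^ 2) y := by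
      have h3 : IsCoprime (x ^ 2) y := (IsCoprime.pow_left_iff two_pos).2 hc
      have h5 : x ^ 2 - y ^ 2 = x ^ 2 + y * (-y) := by ring
      rw [h5]
      exact h3.add_mul_left_left (-y)
    exact h2.mul_right h2'
  obtain ⟨m, n, e1, e2, -, hmn, hpar, -⟩ := pyth (x := x ^ 2 - y ^ 2) (y := x * y) (z := |z|)
    (by rw [sq_abs, ← h]; ring) hco (by omega) (abs_pos.2 hz0)
  have m3 := sq_mod m
  have m4 := sq_mod n
  have hmo : m % 2 = 1 := by omega
  have hne : n % 2 = 0 := by omega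
  have e3 : x * y' = m * n := by
    rw [hy'] at e2; linarith
  -- the four numbers
  have hxd : x ∣ m * n := ⟨y', e3.symm⟩
  obtain ⟨a, b, ⟨c, hac⟩, ⟨d, hbd⟩, hab⟩ := exists_dvd_and_dvd_of_dvd_mul hxd
  have ha0 : a ≠ 0 := by rintro rfl; apply hx0; rw [hab]; ring
  have hb0 : b ≠ 0 := by rintro rfl; apply hx0; rw [hab]; ring
  have hcd : y' = c * d := by
    have h1 : (a * b) * y' = (a * b) * (c * d) := by
      rw [← hab, e3, hac, hbd, hab]; ring
    exact mul_left_cancel₀ (mul_ne_zero ha0 hb0) h1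
  have hxy' : IsCoprime x y' := by
    rw [hy'] at hc; exact hc.of_mul_right_right
  have had : IsCoprime a d := by
    rw [hab, hcd] at hxy'
    exact hxy'.of_mul_left_left.of_mul_right_right
  have hbc : IsCoprime b c := by
    rw [hac, hbd] at hmn
    exact hmn.of_mul_left_right.of_mul_right_left.symm
  have hc0 : c ≠ 0 := by rintro rfl; apply hy'0; rw [hcd]; ring
  have hd0 : d ≠ 0 := by rintro rfl; apply hy'0; rw [hcd]; ring
  have hao : a % 2 = 1 := by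
    rcases Int.emod_two_eq_zero_or_one a with h0 | h0
    · rw [hab, Int.mul_emod, h0] at hx; simp at hx
    · exact h0
  have hbo : b % 2 = 1 := by
    rcases Int.emod_two_eq_zero_or_one b with h0 | h0
    · rw [hab, Int.mul_emod, h0] at hx; simp at hx
    · exact h0
  have hcodd : c % 2 = 1 := by
    rcases Int.emod_two_eq_zero_or_one c with h0 | h0
    · rw [hac, Int.mul_emod, h0] at hmo; simp at hmo
    · exact h0
  have hde : d % 2 = 0 := by
    rcases Int.emod_two_eq_zero_or_one d with h0 | h0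
    · exact h0
    · rw [hbd, Int.mul_emod, hbo, h0] at hne; simp at hne
  have e5 : a ^ 2 * (b ^ 2 - c ^ 2) = d ^ 2 * (4 * c ^ 2 - b ^ 2) := by
    rw [hy', hab, hac, hbd, hcd] at e1
    linear_combination e1
  have had2 : IsCoprime (a ^ 2) (d ^ 2) := (IsCoprime.pow_iff two_pos two_pos).2 had
  obtain ⟨k, hk⟩ : a ^ 2 ∣ 4 * c ^ 2 - b ^ 2 :=
    had2.dvd_of_dvd_mul_left ⟨b ^ 2 - c ^ 2, e5.symm⟩
  have hk2 : b ^ 2 - c ^ 2 = k * d ^ 2 := by
    have h1 : a ^ 2 * (b ^ 2 - c ^ 2) = a ^ 2 * (k * d ^ 2) := by rw [e5, hk]; ring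
    exact mul_left_cancel₀ (pow_ne_zero 2 ha0) h1
  have hk3 : 3 * c ^ 2 = k * (a ^ 2 + d ^ 2) := by linarith
  have hk4 : 3 * b ^ 2 = k * (a ^ 2 + 4 * d ^ 2) := by linarith
  have hk5 : k ∣ 3 := by
    have hbc2 : IsCoprime (b ^ 2) (c ^ 2) := (IsCoprime.pow_iff two_pos two_pos).2 hbc
    obtain ⟨u, v, huv⟩ := hbc2
    refine ⟨u * (a ^ 2 + 4 * d ^ 2) + v * (a ^ 2 + d ^ 2), ?_⟩
    linear_combination (-3) * huv + u * hk4 + v * hk3
  have hk6 : k = 3 := by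
    have hle : k ≤ 3 := Int.le_of_dvd (by norm_num) hk5
    have hge : -3 ≤ k := by
      have : -k ≤ 3 := Int.le_of_dvd (by norm_num) (by rwa [neg_dvd])
      linarith
    have n1 : a ^ 2 % 8 = 1 := by rcases sq_mod a with ⟨h1, h2⟩ | ⟨h1, h2⟩ <;> omega
    have n2 : b ^ 2 % 8 = 1 := by rcases sq_mod b with ⟨h1, h2⟩ | ⟨h1, h2⟩ <;> omega
    have n3 : c ^ 2 % 8 = 1 := by rcases sq_mod c with ⟨h1, h2⟩ | ⟨h1, h2⟩ <;> omega
    have n4 : (a ^ 2 * k) % 8 = 3 := by rw [← hk]; omega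
    obtain ⟨q, hq⟩ : ∃ q, a ^ 2 = 8 * q + 1 := ⟨a ^ 2 / 8, by omega⟩
    have n5 : a ^ 2 * k = 8 * (q * k) + k := by rw [hq]; ring
    have n6 : k % 8 = 3 := by omega
    omega
  rw [hk6] at hk3 hk4
  have hc2 : c ^ 2 = a ^ 2 + d ^ 2 := by linarith
  have hb2 : b ^ 2 = a ^ 2 + 4 * d ^ 2 := by linarith
  obtain ⟨t, w, f1, f2, f3⟩ := exists_of_two hc2 hb2 had hao
  refine ⟨t, w, c, f2, by rw [f1]; exact hd0, by rw [f1]; exact hde, ?_, f3⟩
  rw [f1, hy', hcd, Int.natAbs_mul, Int.natAbs_mul, Int.natAbs_mul]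
  have g1 : 0 < x.natAbs := Int.natAbs_pos.2 hx0
  have g2 : 0 < c.natAbs := Int.natAbs_pos.2 hc0
  have g3 : 0 < d.natAbs := Int.natAbs_pos.2 hd0
  have g4 : (2 : ℤ).natAbs = 2 := rfl
  rw [g4]
  have g5 : d.natAbs ≤ c.natAbs * d.natAbs := Nat.le_mul_of_pos_left _ g2
  have g6 : c.natAbs * d.natAbs ≤ x.natAbs * (c.natAbs * d.natAbs) := Nat.le_mul_of_pos_left _ g1
  have g7 : x.natAbs * (2 * (c.natAbs * d.natAbs)) = 2 * (x.natAbs * (c.natAbs * d.natAbs)) := by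
    ring
  rw [g7]
  have g8 : 0 < x.natAbs * (c.natAbs * d.natAbs) := by positivity
  omega

/-- Infinite descent: no coprime solutions with `x y ≠ 0` even. -/
theorem euler_even (N : ℕ) : ∀ x y z : ℤ, (x * y).natAbs = N → IsCoprime x y → x * y ≠ 0 →
    x * y % 2 = 0 → x ^ 4 - x ^ 2 * y ^ 2 + y ^ 4 ≠ z ^ 2 := by
  induction N using Nat.strong_induction_on with
  | _ N ih =>
    intro x y z hN hc h0 h2 h
    have hx0 : x ≠ 0 := left_ne_zero_of_mul h0
    have hy0 : y ≠ 0 := right_ne_zero_of_mul h0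
    have hpar : (x % 2 = 1 ∧ y % 2 = 0) ∨ (y % 2 = 1 ∧ x % 2 = 0) := by
      rcases Int.emod_two_eq_zero_or_one x with hx | hx
      · right; exact ⟨(even_or_of_coprime hc).resolve_left (by omega), hx⟩
      · left
        refine ⟨hx, ?_⟩
        rcases Int.emod_two_eq_zero_or_one y with hy | hy
        · exact hy
        · rw [Int.mul_emod, hx, hy] at h2; simp at h2
    rcases hpar with ⟨hx, hy⟩ | ⟨hy, hx⟩
    · obtain ⟨t, w, c, f1, f2, f3, f4, f5⟩ := euler_step h hc hx hy hy0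
      exact ih _ (by rw [← hN]; exact f4) t w c rfl f1 f2 f3 f5
    · obtain ⟨t, w, c, f1, f2, f3, f4, f5⟩ := euler_step (x := y) (y := x) (z := z)
        (by rw [← h]; ring) hc.symm hy hx hx0
      exact ih _ (by rw [← hN, mul_comm x y]; exact f4) t w c rfl f1 f2 f3 f5

/-- Euler's quartic for coprime integers. -/
theorem euler_coprime {x y z : ℤ} (hc : IsCoprime x y)
    (h : x ^ 4 - x ^ 2 * y ^ 2 + y ^ 4 = z ^ 2) : x * y = 0 ∨ x ^ 2 = y ^ 2 := by
  by_contra hcon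
  push Not at hcon
  obtain ⟨h0, hne⟩ := hcon
  rcases Int.emod_two_eq_zero_or_one (x * y) with h2 | h2
  · exact euler_even _ x y z rfl hc h0 h2 h
  -- both odd
  have hx : x % 2 = 1 := by
    rcases Int.emod_two_eq_zero_or_one x with hx | hx
    · rw [Int.mul_emod, hx] at h2; simp at h2
    · exact hx
  have hy : y % 2 = 1 := by
    rcases Int.emod_two_eq_zero_or_one y with hy | hy
    · rw [Int.mul_emod, hy] at h2; simp at h2
    · exact hy
  have hx0 : x ≠ 0 := left_ne_zero_of_mul h0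
  have hy0 : y ≠ 0 := right_ne_zero_of_mul h0
  have hz0 : z ≠ 0 := by
    rintro rfl
    have h1 : x ^ 4 - x ^ 2 * y ^ 2 + y ^ 4 = (x ^ 2 - y ^ 2) ^ 2 + x ^ 2 * y ^ 2 := by ring
    have h2 : 0 < x ^ 2 * y ^ 2 := by positivity
    have h3 : 0 ≤ (x ^ 2 - y ^ 2) ^ 2 := by positivity
    rw [h1] at h
    linarith
  have hco : IsCoprime (x * y) (x ^ 2 - y ^ 2) := by
    have h2 : IsCoprime (x ^ 2 - y ^ 2) x := by
      have h3 : IsCoprime (y ^ 2) x := (IsCoprime.pow_left_iff two_pos).2 hc.symm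
      have h4 : IsCoprime (-(y ^ 2)) x := h3.neg_left
      have h5 : x ^ 2 - y ^ 2 = -(y ^ 2) + x * x := by ring
      rw [h5]
      exact h4.add_mul_left_left x
    have h2' : IsCoprime (x ^ 2 - y ^ 2) y := by
      have h3 : IsCoprime (x ^ 2) y := (IsCoprime.pow_left_iff two_pos).2 hc
      have h5 : x ^ 2 - y ^ 2 = x ^ 2 + y * (-y) := by ring
      rw [h5]
      exact h3.add_mul_left_left (-y)
    exact (h2.mul_right h2').symm
  obtain ⟨m, n, e1, e2, -, hmn, hpar, -⟩ := pyth (x := x * y) (y := x ^ 2 - y ^ 2) (z := |z|)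
    (by rw [sq_abs, ← h]; ring) hco h2 (abs_pos.2 hz0)
  -- `((x² + y²) / 2)² = m⁴ - m² n² + n⁴`
  have m1 := sq_mod x
  have m2 := sq_mod y
  obtain ⟨u, hu⟩ : ∃ u, x ^ 2 + y ^ 2 = 2 * u := ⟨(x ^ 2 + y ^ 2) / 2, by omega⟩
  have e3 : m ^ 4 - m ^ 2 * n ^ 2 + n ^ 4 = u ^ 2 := by
    have h1 : (2 * u) ^ 2 = (x ^ 2 - y ^ 2) ^ 2 + 4 * (x * y) ^ 2 := by rw [← hu]; ring
    rw [e1, e2] at h1
    linarith
  have hmn0 : m * n ≠ 0 := by
    intro h1
    apply hne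
    have : x ^ 2 - y ^ 2 = 2 * (m * n) := by rw [e2]; ring
    rw [h1] at this
    linarith
  have hmn2 : m * n % 2 = 0 := by
    rcases hpar with ⟨q1, q2⟩ | ⟨q1, q2⟩
    · rw [Int.mul_emod, q1]; simp
    · rw [Int.mul_emod, q2]; simp
  exact euler_even _ m n u rfl hmn hmn0 hmn2 e3

/-- Euler's quartic in integers. -/
theorem euler_int {x y z : ℤ} (h : x ^ 4 - x ^ 2 * y ^ 2 + y ^ 4 = z ^ 2) :
    x * y = 0 ∨ x ^ 2 = y ^ 2 := by
  by_cases hy : y = 0
  · left; rw [hy, mul_zero]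
  have hg : 0 < Int.gcd x y := Int.gcd_pos_of_ne_zero_right x hy
  obtain ⟨a, b, hab, ha, hb⟩ := Int.exists_gcd_one hg
  set g : ℤ := (Int.gcd x y : ℤ) with hgdef
  have hg0 : g ≠ 0 := by rw [hgdef]; exact_mod_cast hg.ne'
  have h1 : (g ^ 2) ^ 2 * (a ^ 4 - a ^ 2 * b ^ 2 + b ^ 4) = z ^ 2 := by
    rw [← h, ha, hb]; ring
  have h2 : g ^ 2 ∣ z := by
    rw [← Int.pow_dvd_pow_iff two_ne_zero]
    exact ⟨_, h1.symm⟩
  obtain ⟨w, hw⟩ := h2
  have h3 : a ^ 4 - a ^ 2 * b ^ 2 + b ^ 4 = w ^ 2 := by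
    have h4 : (g ^ 2) ^ 2 * (a ^ 4 - a ^ 2 * b ^ 2 + b ^ 4) = (g ^ 2) ^ 2 * w ^ 2 := by
      rw [h1, hw]; ring
    exact mul_left_cancel₀ (by positivity : (g ^ 2) ^ 2 ≠ 0) h4
  rcases euler_coprime (Int.isCoprime_iff_gcd_eq_one.2 hab) h3 with h4 | h4
  · left
    rw [ha, hb]
    have : a * g * (b * g) = (a * b) * g ^ 2 := by ring
    rw [this, h4, zero_mul]
  · right
    rw [ha, hb, mul_pow, mul_pow, h4]

/-- **Euler**: the rational solutions of `x⁴ - x² y² + y⁴ = z²` have `x y = 0` or `x² = y²`. -/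
theorem euler_quartic {x y z : ℚ} (h : x ^ 4 - x ^ 2 * y ^ 2 + y ^ 4 = z ^ 2) :
    x * y = 0 ∨ x ^ 2 = y ^ 2 := by
  obtain ⟨d, a, b, c, hd, ha, hb, hc⟩ := exists_den x y z
  have hdq : (d : ℚ) ≠ 0 := by exact_mod_cast hd
  have h1 : a ^ 4 - a ^ 2 * b ^ 2 + b ^ 4 = (c * d) ^ 2 := by
    have : ((a : ℤ) : ℚ) ^ 4 - (a : ℚ) ^ 2 * (b : ℚ) ^ 2 + (b : ℚ) ^ 4 = ((c : ℚ) * d) ^ 2 := by
      rw [← ha, ← hb, ← hc]
      linear_combination (d : ℚ) ^ 4 * h
    exact_mod_cast this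
  rcases euler_int h1 with h2 | h2
  · left
    have h3 : (a : ℚ) * b = 0 := by exact_mod_cast h2
    rw [← ha, ← hb] at h3
    have h4 : x * y * (d : ℚ) ^ 2 = 0 := by linarith
    exact (mul_eq_zero.1 h4).resolve_right (pow_ne_zero 2 hdq)
  · right
    have h3 : (a : ℚ) ^ 2 = (b : ℚ) ^ 2 := by exact_mod_cast h2
    rw [← ha, ← hb] at h3
    have h4 : x ^ 2 * (d : ℚ) ^ 2 = y ^ 2 * (d : ℚ) ^ 2 := by linarith
    exact mul_right_cancel₀ (pow_ne_zero 2 hdq) h4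

/-- **Fermat's theorem on four squares** (letter to Frenicle, 1640; Euler): four squares of rational
numbers which are in arithmetic progression are equal. -/
theorem four_squares {a b c d : ℚ} (h1 : b ^ 2 - a ^ 2 = c ^ 2 - b ^ 2)
    (h2 : c ^ 2 - b ^ 2 = d ^ 2 - c ^ 2) : a ^ 2 = b ^ 2 ∧ b ^ 2 = c ^ 2 ∧ c ^ 2 = d ^ 2 := by
  -- `p = (a + c) / 2`, `q = (c - a) / 2`, `r = (b + d) / 2`, `s = (d - b) / 2`, `p q = r s`
  suffices hq : c ^ 2 = b ^ 2 by
    exact ⟨by linarith, by linarith, by linarith⟩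
  by_contra hne
  set p := (a + c) / 2 with hp
  set q := (c - a) / 2 with hq
  set r := (b + d) / 2 with hr
  set s := (d - b) / 2 with hs
  have ea : a = p - q := by rw [hp, hq]; ring
  have ec : c = p + q := by rw [hp, hq]; ring
  have eb : b = r - s := by rw [hr, hs]; ring
  have ed : d = r + s := by rw [hr, hs]; ring
  rw [ea, eb, ec] at h1
  rw [eb, ec, ed] at h2
  have k1 : p ^ 2 + q ^ 2 = (r - s) ^ 2 := by linarith
  have k2 : (p + q) ^ 2 = r ^ 2 + s ^ 2 := by linarith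
  have k3 : p * q = r * s := by linarith
  have hpq : p * q ≠ 0 := by
    intro h0
    apply hne
    rw [ec, eb]
    have : r * s = 0 := by rw [← k3, h0]
    linarith
  have hp0 : p ≠ 0 := left_ne_zero_of_mul hpq
  have hr0 : r ≠ 0 := by
    intro h0; apply hpq; rw [k3, h0, zero_mul]
  have key : (s * (r ^ 2 - p ^ 2) + p ^ 2 * r) ^ 2 =
      p ^ 2 * (r ^ 4 - r ^ 2 * p ^ 2 + p ^ 4) := by
    have k4 : (p ^ 2 + r * s) ^ 2 = p ^ 2 * (r ^ 2 + s ^ 2) := by
      rw [← k2, ← k3]; ring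
    linear_combination (p ^ 2 - r ^ 2) * k4 * (-1)
  have key2 : r ^ 4 - r ^ 2 * p ^ 2 + p ^ 4 = ((s * (r ^ 2 - p ^ 2) + p ^ 2 * r) / p) ^ 2 := by
    field_simp
    linarith
  rcases euler_quartic key2 with h3 | h3
  · rcases mul_eq_zero.1 h3 with h4 | h4
    · exact hr0 h4
    · exact hp0 h4
  · -- `r² = p²`, then `2 p² r s = 0`
    have k4 : (p ^ 2 + r * s) ^ 2 = p ^ 2 * (r ^ 2 + s ^ 2) := by
      rw [← k2, ← k3]; ring
    have k5 : p ^ 2 * (p * q) = 0 := by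
      rw [k3]
      rw [h3] at k4
      have k6 : r ^ 2 * s ^ 2 = p ^ 2 * s ^ 2 := by rw [h3]
      linarith
    rcases mul_eq_zero.1 k5 with h4 | h4
    · exact hp0 (pow_eq_zero_iff two_ne_zero |>.1 h4)
    · exact hpq h4

/-- Four squares of natural numbers in arithmetic progression are equal. -/
theorem four_squares_nat {a b c d n : ℕ} (h1 : b ^ 2 = a ^ 2 + n) (h2 : c ^ 2 = a ^ 2 + 2 * n)
    (h3 : d ^ 2 = a ^ 2 + 3 * n) : n = 0 := by
  have e1 : (b : ℚ) ^ 2 = (a : ℚ) ^ 2 + n := by exact_mod_cast h1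
  have e2 : (c : ℚ) ^ 2 = (a : ℚ) ^ 2 + 2 * n := by exact_mod_cast h2
  have e3 : (d : ℚ) ^ 2 = (a : ℚ) ^ 2 + 3 * n := by exact_mod_cast h3
  have := (four_squares (a := a) (b := b) (c := c) (d := d) (by linarith) (by linarith)).1
  have h4 : (n : ℚ) = 0 := by linarith
  exact_mod_cast h4

end Fermat.Agent.Cor.Ferm
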