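/-
The equations y² + 2 = x³ and y² + 4 = x³ (helper85).
-/
import Fermat.Agent.Corollaries.Ferm.Quartic

/-!
# The equations `y² + 2 = x³` and `y² + 4 = x³`

Fermat (Observation XLII on Diophantus, challenge to Wallis and Digby 1657): `25` is the only square
which becomes a cube after adding `2`, and `4`, `121` are the only squares which become cubes after
adding `4`. The proofs (Euler) use unique factorization in `ℤ[√-2]` (`euclid`) and `ℤ[i]`.
-/

namespace Fermat.Agent.Cor.Ferm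

/-- Division with the remainder of smallest absolute value. -/
lemma exists_near_int {G : ℤ} (hG : 0 < G) (H : ℤ) :
    ∃ k : ℤ, 4 * (H - k * G) ^ 2 ≤ G ^ 2 := by
  have h1 := Int.mul_ediv_self_le (x := 2 * H + G) (k := 2 * G) (by positivity)
  have h2 := Int.lt_mul_ediv_self_add (x := 2 * H + G) (k := 2 * G) (by positivity)
  refine ⟨(2 * H + G) / (2 * G), ?_⟩
  set k := (2 * H + G) / (2 * G)
  have h3 : 2 * (H - k * G) ≤ G := by nlinarith
  have h4 : -G ≤ 2 * (H - k * G) := by nlinarith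
  nlinarith [mul_nonneg (sub_nonneg.2 h3) (by linarith : (0 : ℤ) ≤ 2 * (H - k * G) + G)]

/-- Division with remainder in `ℤ[√-2]`. -/
lemma exists_quot (x : ℤ√(-2)) {y : ℤ√(-2)} (hy : y ≠ 0) :
    ∃ q : ℤ√(-2), (x - y * q).norm.natAbs < y.norm.natAbs := by
  have hn : 0 < y.norm := by
    have h1 := Zsqrtd.norm_nonneg (by norm_num : (-2 : ℤ) ≤ 0) y
    have h2 : y.norm ≠ 0 := fun h => hy ((Zsqrtd.norm_eq_zero_iff (by norm_num) y).1 h)
    omega
  obtain ⟨u, hu⟩ := exists_near_int hn (x * star y).re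
  obtain ⟨v, hv⟩ := exists_near_int hn (x * star y).im
  refine ⟨⟨u, v⟩, ?_⟩
  have hyy : y * star y = (y.norm : ℤ√(-2)) := (Zsqrtd.norm_eq_mul_conj y).symm
  have h1 : (x - y * ⟨u, v⟩) * star y = ⟨(x * star y).re - u * y.norm, (x * star y).im - v * y.norm⟩ := by
    have h2 : (x - y * ⟨u, v⟩) * star y = x * star y - (y * star y) * ⟨u, v⟩ := by ring
    rw [h2, hyy]
    ext <;> simp <;> ring
  have h3 : (x - y * ⟨u, v⟩).norm * y.norm =
      ((x * star y).re - u * y.norm) ^ 2 + 2 * ((x * star y).im - v * y.norm) ^ 2 := by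
    have h4 := congrArg Zsqrtd.norm h1
    rw [Zsqrtd.norm_mul, Zsqrtd.norm_conj] at h4
    rw [h4, Zsqrtd.norm_def]
    ring
  have h5 := Zsqrtd.norm_nonneg (by norm_num : (-2 : ℤ) ≤ 0) (x - y * ⟨u, v⟩)
  have h6 : (x - y * ⟨u, v⟩).norm < y.norm := by
    by_contra hc
    push Not at hc
    nlinarith [mul_le_mul_of_nonneg_right hc hn.le]
  omega

open Classical in
/-- `ℤ[√-2]` is a Euclidean domain. -/
@[reducible] noncomputable def euclid : EuclideanDomain (ℤ√(-2)) :=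
  { Zsqrtd.commRing, Zsqrtd.nontrivial with
    quotient := fun x y => if h : y = 0 then 0 else Classical.choose (exists_quot x h)
    quotient_zero := fun x => by simp
    remainder := fun x y => x - y * (if h : y = 0 then 0 else Classical.choose (exists_quot x h))
    quotient_mul_add_remainder_eq := fun x y => by ring
    r := fun x y => x.norm.natAbs < y.norm.natAbs
    r_wellFounded := (measure fun x : ℤ√(-2) => x.norm.natAbs).wf
    remainder_lt := fun x y hy => by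
      simp only [dif_neg hy]
      exact Classical.choose_spec (exists_quot x hy)
    mul_left_not_lt := fun x y hy => by
      rw [Zsqrtd.norm_mul, Int.natAbs_mul, not_lt]
      have h2 : y.norm ≠ 0 := fun h => hy ((Zsqrtd.norm_eq_zero_iff (by norm_num) y).1 h)
      exact Nat.le_mul_of_pos_right _ (Int.natAbs_pos.2 h2) }

/-- `ℤ[√-2]` is a domain. -/
theorem isDomain_neg_two : IsDomain (ℤ√(-2)) := by
  have : NoZeroDivisors (ℤ√(-2)) := ⟨fun {a b} h => by
    have h1 := congrArg Zsqrtd.norm h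
    rw [Zsqrtd.norm_mul, Zsqrtd.norm_zero] at h1
    rcases mul_eq_zero.1 h1 with h2 | h2
    · exact Or.inl ((Zsqrtd.norm_eq_zero_iff (by norm_num) a).1 h2)
    · exact Or.inr ((Zsqrtd.norm_eq_zero_iff (by norm_num) b).1 h2)⟩
  exact NoZeroDivisors.to_isDomain _

/-- `ℤ[√-2]` is a principal ideal ring. -/
theorem isPrincipalIdealRing_neg_two : IsPrincipalIdealRing (ℤ√(-2)) :=
  @EuclideanDomain.to_principal_ideal_domain _ euclid

lemma cube_mod {c : ℤ} (hc : c % 2 = 1) : ∃ j : ℤ, c ^ 2 = 1 + 4 * j := by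
  rcases sq_mod c with ⟨h1, h2⟩ | ⟨h1, h2⟩
  · omega
  · exact ⟨(c ^ 2 - 1) / 4, by omega⟩

/-- Fermat: the only solutions of `y² + 2 = x³` in integers are `(3, ±5)`. -/
theorem sq_add_two_eq_cube_iff {x y : ℤ} : y ^ 2 + 2 = x ^ 3 ↔ x = 3 ∧ (y = 5 ∨ y = -5) := by
  constructor
  swap
  · rintro ⟨rfl, rfl | rfl⟩ <;> norm_num
  intro h
  have := isDomain_neg_two
  have := isPrincipalIdealRing_neg_two
  have hxo : x % 2 = 1 := by
    rcases Int.emod_two_eq_zero_or_one x with h1 | h1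
    · exfalso
      obtain ⟨k, hk⟩ : ∃ k, x = 2 * k := ⟨x / 2, by omega⟩
      have h3 : y ^ 2 + 2 = 4 * (2 * k ^ 3) := by rw [h, hk]; ring
      have := sq_mod y
      omega
    · exact h1
  have hx3 : (x ^ 3) % 2 = 1 := by
    rw [pow_succ, Int.mul_emod, hxo]
    rcases sq_mod x with ⟨h1, h2⟩ | ⟨h1, h2⟩ <;> omega
  obtain ⟨j, hj⟩ := cube_mod hx3
  set α : ℤ√(-2) := ⟨y, 1⟩ with hα
  set β : ℤ√(-2) := ⟨y, -1⟩ with hβ
  have hαβ : α * β = (x : ℤ√(-2)) ^ 3 := by
    have h1 : α * β = ((y ^ 2 + 2 : ℤ) : ℤ√(-2)) := by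
      rw [hα, hβ, Zsqrtd.intCast_val]
      ext
      · rw [Zsqrtd.re_mul]; ring
      · rw [Zsqrtd.im_mul]; ring
    rw [h1, h]
    push_cast
    rfl
  have hco : IsCoprime α β := by
    -- `4 = (-√-2) (α - β)`
    set s : ℤ√(-2) := ⟨0, 1⟩ with hs
    have h4 : (-s) * (α - β) = 4 := by
      rw [hα, hβ, hs]
      ext <;> simp
    have h5 : (α * β) ^ 2 = 1 + 4 * (j : ℤ√(-2)) := by
      rw [hαβ]
      have : ((x : ℤ√(-2)) ^ 3) ^ 2 = (((x ^ 3) ^ 2 : ℤ) : ℤ√(-2)) := by push_cast; rfl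
      rw [this, hj]
      push_cast
      rfl
    refine ⟨α * β ^ 2 + j * s, -(j * s), ?_⟩
    linear_combination h5 - (j : ℤ√(-2)) * h4
  obtain ⟨d, u, hu⟩ := exists_associated_pow_of_mul_eq_pow' hco hαβ
  -- units are `± 1`
  have hun : (u : ℤ√(-2)).norm = 1 :=
    (Zsqrtd.norm_eq_one_iff' (by norm_num) _).2 u.isUnit
  obtain ⟨e, he⟩ : ∃ e : ℤ√(-2), e ^ 3 = α := by
    rw [Zsqrtd.norm_def] at hun
    have h1 : (u : ℤ√(-2)).im = 0 := by
      by_contra hne
      have : 0 < (u : ℤ√(-2)).im * (u : ℤ√(-2)).im := mul_self_pos.2 hne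
      nlinarith [mul_self_nonneg (u : ℤ√(-2)).re]
    rw [h1] at hun
    have h2 : (u : ℤ√(-2)).re = 1 ∨ (u : ℤ√(-2)).re = -1 := by
      have : (u : ℤ√(-2)).re * (u : ℤ√(-2)).re = 1 := by linarith
      exact mul_self_eq_one_iff.1 this
    rcases h2 with h2 | h2
    · refine ⟨d, ?_⟩
      have h3 : (u : ℤ√(-2)) = 1 := by ext <;> simp [h1, h2]
      rw [← hu, h3, mul_one]
    · refine ⟨-d, ?_⟩
      have h3 : (u : ℤ√(-2)) = -1 := by ext <;> simp [h1, h2]
      rw [← hu, h3]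
      ring
  -- coordinates
  obtain ⟨a, b⟩ := e
  have he1 : y = a ^ 3 - 6 * a * b ^ 2 := by
    have := congrArg Zsqrtd.re he
    simp [pow_succ, hα] at this
    linarith
  have he2 : 1 = b * (3 * a ^ 2 - 2 * b ^ 2) := by
    have := congrArg Zsqrtd.im he
    simp [pow_succ, hα] at this
    linarith
  have hb : b = 1 ∨ b = -1 := Int.isUnit_iff.1 (IsUnit.of_mul_eq_one _ he2.symm)
  have ha : a = 1 ∨ a = -1 := by
    rcases hb with hb | hb
    · rw [hb] at he2
      have : a * a = 1 := by nlinarith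
      exact mul_self_eq_one_iff.1 this
    · rw [hb] at he2
      omega
  have hy : y = 5 ∨ y = -5 := by
    rcases ha with ha | ha <;> rcases hb with hb | hb <;> rw [ha, hb] at he1 <;> norm_num at he1 <;>
      simp [he1]
  refine ⟨?_, hy⟩
  have h27 : x ^ 3 = 3 ^ 3 := by
    rcases hy with hy | hy <;> rw [hy] at h <;> linarith
  exact (Odd.strictMono_pow (by decide : Odd 3)).injective h27

/-- Every unit of `ℤ[i]` is a cube. -/
lemma gauss_unit_cube (u : GaussianIntˣ) : ∃ v : GaussianInt, v ^ 3 = (u : GaussianInt) := by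
  have hun : (u : GaussianInt).norm = 1 := (Zsqrtd.norm_eq_one_iff' (by norm_num) _).2 u.isUnit
  rw [Zsqrtd.norm_def] at hun
  obtain ⟨p, hp⟩ : ∃ p, p = (u : GaussianInt).re := ⟨_, rfl⟩
  obtain ⟨q, hq⟩ : ∃ q, q = (u : GaussianInt).im := ⟨_, rfl⟩
  have hu : (u : GaussianInt) = ⟨p, q⟩ := by rw [hp, hq]
  rw [← hp, ← hq] at hun
  rw [hu]
  have h1 : (p = 0 ∧ (q = 1 ∨ q = -1)) ∨ (q = 0 ∧ (p = 1 ∨ p = -1)) := by
    by_cases h0 : p = 0
    · left
      refine ⟨h0, mul_self_eq_one_iff.1 ?_⟩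
      rw [h0] at hun; linarith
    · right
      have h2 : 0 < p * p := mul_self_pos.2 h0
      have hq0 : q = 0 := by
        by_contra hne
        have := mul_self_pos.2 hne
        linarith
      refine ⟨hq0, mul_self_eq_one_iff.1 ?_⟩
      rw [hq0] at hun; linarith
  rcases h1 with ⟨rfl, rfl | rfl⟩ | ⟨rfl, rfl | rfl⟩
  · exact ⟨⟨0, -1⟩, by rfl⟩
  · exact ⟨⟨0, 1⟩, by rfl⟩
  · exact ⟨⟨1, 0⟩, by rfl⟩
  · exact ⟨⟨-1, 0⟩, by rfl⟩

/-- A factor of a cube which is coprime to the other factor is a cube (in `ℤ[i]`). -/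
lemma gauss_cube {α β γ : GaussianInt} (hco : IsCoprime α β) (h : α * β = γ ^ 3) :
    ∃ a b : ℤ, α = ⟨a ^ 3 - 3 * a * b ^ 2, 3 * a ^ 2 * b - b ^ 3⟩ := by
  obtain ⟨d, u, hu⟩ := exists_associated_pow_of_mul_eq_pow' hco h
  obtain ⟨v, hv⟩ := gauss_unit_cube u
  obtain ⟨e, he⟩ : ∃ e : GaussianInt, e ^ 3 = α := ⟨d * v, by rw [mul_pow, hv, hu]⟩
  obtain ⟨a, b⟩ := e
  refine ⟨a, b, ?_⟩
  rw [← he]
  ext
  · simp [pow_succ]; ring
  · simp [pow_succ]; ring

/-- Fermat: the only solutions of `y² + 4 = x³` in integers are `(2, ±2)` and `(5, ±11)`. -/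
theorem sq_add_four_eq_cube_iff {x y : ℤ} : y ^ 2 + 4 = x ^ 3 ↔
    (x = 2 ∧ (y = 2 ∨ y = -2)) ∨ (x = 5 ∧ (y = 11 ∨ y = -11)) := by
  constructor
  swap
  · rintro (⟨rfl, rfl | rfl⟩ | ⟨rfl, rfl | rfl⟩) <;> norm_num
  intro h
  have hfin : ∀ X : ℤ, x ^ 3 = X ^ 3 → x = X := fun X hX =>
    (Odd.strictMono_pow (by decide : Odd 3)).injective hX
  rcases Int.emod_two_eq_zero_or_one y with hy | hy
  · -- `y` even
    obtain ⟨k, hk⟩ : ∃ k, y = 2 * k := ⟨y / 2, by omega⟩
    have hxe : x % 2 = 0 := by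
      rcases Int.emod_two_eq_zero_or_one x with h1 | h1
      · exact h1
      · exfalso
        have h2 : (x ^ 3) % 2 = 1 := by
          rw [pow_succ, Int.mul_emod, h1]
          rcases sq_mod x with ⟨h1, h2⟩ | ⟨h1, h2⟩ <;> omega
        rw [← h, hk] at h2
        have : (2 * k) ^ 2 + 4 = 2 * (2 * k ^ 2 + 2) := by ring
        omega
    obtain ⟨X, hX⟩ : ∃ X, x = 2 * X := ⟨x / 2, by omega⟩
    have h1 : k ^ 2 + 1 = 2 * X ^ 3 := by
      rw [hk, hX] at h; linarith
    have hko : k % 2 = 1 := by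
      have := sq_mod k
      omega
    obtain ⟨l, hl⟩ : ∃ l, k = 2 * l + 1 := ⟨k / 2, by omega⟩
    have h2 : (l + 1) ^ 2 + l ^ 2 = X ^ 3 := by
      rw [hl] at h1; linarith
    set α : GaussianInt := ⟨l + 1, -l⟩ with hα
    set β : GaussianInt := ⟨l + 1, l⟩ with hβ
    have hαβ : α * β = (X : GaussianInt) ^ 3 := by
      have h3 : α * β = (((l + 1) ^ 2 + l ^ 2 : ℤ) : GaussianInt) := by
        rw [hα, hβ, Zsqrtd.intCast_val]
        ext
        · rw [Zsqrtd.re_mul]; ring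
        · rw [Zsqrtd.im_mul]; ring
      rw [h3, h2]
      push_cast
      rfl
    have hco : IsCoprime α β := by
      set i : GaussianInt := ⟨0, 1⟩ with hi
      have h4 : (α + β) - i * (α - β) = 2 := by
        rw [hα, hβ, hi]
        ext <;> simp
        ring
      have h5 : α * β = 1 + 2 * ((l ^ 2 + l : ℤ) : GaussianInt) := by
        have h3 : α * β = (((l + 1) ^ 2 + l ^ 2 : ℤ) : GaussianInt) := by
          rw [hαβ, h2]; push_cast; rfl
        rw [h3]
        push_cast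
        ring
      refine ⟨β - ((l ^ 2 + l : ℤ) : GaussianInt) * (1 - i),
        -((l ^ 2 + l : ℤ) : GaussianInt) * (1 + i), ?_⟩
      linear_combination h5 - ((l ^ 2 + l : ℤ) : GaussianInt) * h4
    obtain ⟨a, b, hab⟩ := gauss_cube hco hαβ
    rw [hα, Zsqrtd.ext_iff] at hab
    obtain ⟨e1, e2⟩ := hab
    simp only at e1 e2
    have e3 : (a - b) * (a ^ 2 + 4 * a * b + b ^ 2) = 1 := by linarith
    have e4 : a - b = 1 ∨ a - b = -1 := Int.isUnit_iff.1 (IsUnit.of_mul_eq_one _ e3)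
    left
    have e5 : a - b = 1 ∧ a * b = 0 := by
      rcases e4 with e4 | e4
      · refine ⟨e4, ?_⟩
        rw [e4] at e3
        have : (a - b) ^ 2 = 1 := by rw [e4]; norm_num
        nlinarith
      · exfalso
        rw [e4] at e3
        have : (a - b) ^ 2 = 1 := by rw [e4]; norm_num
        have : 6 * (a * b) = -2 := by nlinarith
        omega
    obtain ⟨e5, e6⟩ := e5
    have hl0 : l = 0 ∨ l = -1 := by
      rcases mul_eq_zero.1 e6 with h0 | h0
      · right
        have hb : b = -1 := by omega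
        rw [h0, hb] at e1
        linarith
      · left
        rw [h0] at e2
        linarith
    have hy2 : y = 2 ∨ y = -2 := by omega
    refine ⟨hfin 2 ?_, hy2⟩
    rcases hy2 with h0 | h0 <;> rw [← h, h0] <;> norm_num
  · -- `y` odd
    have hxo : (x ^ 3) % 2 = 1 := by
      rw [← h]
      rcases sq_mod y with ⟨h1, h2⟩ | ⟨h1, h2⟩ <;> omega
    obtain ⟨j, hj⟩ := cube_mod hxo
    set α : GaussianInt := ⟨y, 2⟩ with hα
    set β : GaussianInt := ⟨y, -2⟩ with hβ
    have hαβ : α * β = (x : GaussianInt) ^ 3 := by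
      have h1 : α * β = ((y ^ 2 + 4 : ℤ) : GaussianInt) := by
        rw [hα, hβ, Zsqrtd.intCast_val]
        ext
        · rw [Zsqrtd.re_mul]; ring
        · rw [Zsqrtd.im_mul]; ring
      rw [h1, h]
      push_cast
      rfl
    have hco : IsCoprime α β := by
      set i : GaussianInt := ⟨0, 1⟩ with hi
      have h4 : (-i) * (α - β) = 4 := by
        rw [hα, hβ, hi]
        ext <;> simp
      have h5 : (α * β) ^ 2 = 1 + 4 * (j : GaussianInt) := by
        rw [hαβ]
        have : ((x : GaussianInt) ^ 3) ^ 2 = (((x ^ 3) ^ 2 : ℤ) : GaussianInt) := by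
          push_cast; rfl
        rw [this, hj]
        push_cast
        rfl
      refine ⟨α * β ^ 2 + j * i, -(j * i), ?_⟩
      linear_combination h5 - (j : GaussianInt) * h4
    obtain ⟨a, b, hab⟩ := gauss_cube hco hαβ
    rw [hα, Zsqrtd.ext_iff] at hab
    obtain ⟨e1, e2⟩ := hab
    simp only at e1 e2
    have e3 : b * (3 * a ^ 2 - b ^ 2) = 2 := by linarith
    have hbd : b ∣ 2 := ⟨_, e3.symm⟩
    have hb1 : b ≤ 2 := Int.le_of_dvd (by norm_num) hbd
    have hb2 : -2 ≤ b := by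
      have : -b ≤ 2 := Int.le_of_dvd (by norm_num) (by rwa [neg_dvd])
      linarith
    have hb : b = -2 ∨ b = -1 ∨ b = 0 ∨ b = 1 ∨ b = 2 := by omega
    right
    have ha : b = -2 ∧ a * a = 1 := by
      rcases hb with hb | hb | hb | hb | hb <;> rw [hb] at e3
      · exact ⟨hb, by linarith⟩
      · exfalso; omega
      · exfalso; omega
      · exfalso
        have ha1 : a * a = 1 := by linarith
        rw [hb] at e1
        rcases mul_self_eq_one_iff.1 ha1 with h0 | h0 <;> rw [h0] at e1 <;> omega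
      · exfalso; omega
    obtain ⟨hb, ha⟩ := ha
    have hy2 : y = 11 ∨ y = -11 := by
      rw [hb] at e1
      rcases mul_self_eq_one_iff.1 ha with h0 | h0 <;> rw [h0] at e1 <;> omega
    refine ⟨hfin 5 ?_, hy2⟩
    rcases hy2 with h0 | h0 <;> rw [← h, h0] <;> norm_num

end Fermat.Agent.Cor.Ferm
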