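/-
Primes of the form x² + 2y² and x² + 3y² (helper85).
-/
import Fermat.Agent.Corollaries.Ferm.Quartic

/-!
# Primes of the form `x² + 2 y²` and `x² + 3 y²`, uniqueness for `x² + y²`

* `prime_iff_two`: a prime `p` is `x² + 2 y²` iff `p = 2` or `p ≡ 1, 3` modulo `8`;
* `prime_iff_three`: a prime `p` is `x² + 3 y²` iff `p = 3` or `p ≡ 1` modulo `3`
  (both: Fermat, letters to Digby 1658 and Pascal 1654; Euler). The proof is Lagrange's: `p` is
  represented by a form of determinant `2` or `3`, which is equivalent to a reduced one (`reduce`).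
* `unique_sq_add_sq`: a prime is a sum of two squares in at most one way.
-/

namespace Fermat.Agent.Cor.Ferm

open NumberTheorySymbols ZMod

/-- Division with the remainder of smallest absolute value. -/
lemma exists_shift {G : ℤ} (hG : 0 < G) (H : ℤ) :
    ∃ k : ℤ, 2 * (H + k * G) ≤ G ∧ -G ≤ 2 * (H + k * G) := by
  have h1 := Int.mul_ediv_self_le (x := 2 * H + G) (k := 2 * G) (by positivity)
  have h2 := Int.lt_mul_ediv_self_add (x := 2 * H + G) (k := 2 * G) (by positivity)
  refine ⟨-((2 * H + G) / (2 * G)), ?_, ?_⟩ <;> nlinarith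

/-- **Lagrange's reduction**: every value of a positive form `G x² + 2 H x y + K y²` is a value of a
reduced form with the same determinant. -/
theorem reduce {D : ℤ} (hD : 0 < D) (n : ℕ) : ∀ G H K : ℤ, G = n → 0 < G → G * K - H ^ 2 = D →
    ∃ g h k : ℤ, 0 < g ∧ 2 * h ≤ g ∧ -g ≤ 2 * h ∧ g ≤ k ∧ g * k - h ^ 2 = D ∧
      ∀ x y : ℤ, ∃ x' y' : ℤ, G * x ^ 2 + 2 * H * x * y + K * y ^ 2 =
        g * x' ^ 2 + 2 * h * x' * y' + k * y' ^ 2 := by
  induction n using Nat.strong_induction_on with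
  | _ n ih =>
    intro G H K hn hG hd
    obtain ⟨k, hk1, hk2⟩ := exists_shift hG H
    have hd' : G * (K + 2 * k * H + k ^ 2 * G) - (H + k * G) ^ 2 = D := by linear_combination hd
    by_cases hle : G ≤ K + 2 * k * H + k ^ 2 * G
    · refine ⟨G, H + k * G, K + 2 * k * H + k ^ 2 * G, hG, hk1, hk2, hle, hd', fun x y => ?_⟩
      exact ⟨x - k * y, y, by ring⟩
    · push Not at hle
      have hpos : 0 < K + 2 * k * H + k ^ 2 * G := by
        by_contra hc
        push Not at hc
        nlinarith [sq_nonneg (H + k * G), mul_nonneg hG.le (neg_nonneg.2 hc)]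
      obtain ⟨g, h, l, h1, h2, h3, h4, h5, h6⟩ := ih (K + 2 * k * H + k ^ 2 * G).toNat (by omega)
        (K + 2 * k * H + k ^ 2 * G) (H + k * G) G (by omega) hpos (by linear_combination hd')
      refine ⟨g, h, l, h1, h2, h3, h4, h5, fun x y => ?_⟩
      obtain ⟨x', y', e⟩ := h6 y (x - k * y)
      exact ⟨x', y', by rw [← e]; ring⟩

lemma reduced_le {g h k D : ℤ} (h1 : 0 < g) (h2 : 2 * h ≤ g) (h3 : -g ≤ 2 * h) (h4 : g ≤ k)
    (h5 : g * k - h ^ 2 = D) : 3 * g ^ 2 ≤ 4 * D := by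
  have h6 : 4 * h ^ 2 ≤ g ^ 2 := by
    nlinarith [mul_nonneg (sub_nonneg.2 h2) (by linarith : (0 : ℤ) ≤ 2 * h + g)]
  nlinarith [mul_le_mul_of_nonneg_left h4 h1.le]

/-- A form of determinant `2` represents only numbers `x² + 2 y²`. -/
theorem exists_of_det_two {G H K : ℤ} (hG : 0 < G) (hd : G * K - H ^ 2 = 2) :
    ∃ x y : ℤ, G = x ^ 2 + 2 * y ^ 2 := by
  obtain ⟨g, h, k, h1, h2, h3, h4, h5, h6⟩ := reduce (by norm_num) G.toNat G H K (by omega) hG hd
  have h7 := reduced_le h1 h2 h3 h4 h5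
  have hg : g = 1 := by nlinarith
  have hh : h = 0 := by omega
  rw [hg, hh] at h5
  have hk : k = 2 := by linarith
  obtain ⟨x, y, e⟩ := h6 1 0
  rw [hg, hh, hk] at e
  exact ⟨x, y, by linarith⟩

/-- A form of determinant `3` represents only even numbers or numbers `x² + 3 y²`. -/
theorem exists_of_det_three {G H K : ℤ} (hG : 0 < G) (hd : G * K - H ^ 2 = 3) (ho : G % 2 = 1) :
    ∃ x y : ℤ, G = x ^ 2 + 3 * y ^ 2 := by
  obtain ⟨g, h, k, h1, h2, h3, h4, h5, h6⟩ := reduce (by norm_num) G.toNat G H K (by omega) hG hd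
  have h7 := reduced_le h1 h2 h3 h4 h5
  have hg : g = 1 ∨ g = 2 := by
    have : g ≤ 2 := by nlinarith
    omega
  obtain ⟨x, y, e⟩ := h6 1 0
  rcases hg with hg | hg
  · have hh : h = 0 := by omega
    rw [hg, hh] at h5
    have hk : k = 3 := by linarith
    rw [hg, hh, hk] at e
    exact ⟨x, y, by linarith⟩
  · exfalso
    have hh : h = -1 ∨ h = 0 ∨ h = 1 := by omega
    rcases hh with hh | hh | hh
    · rw [hg, hh] at h5
      have hk : k = 2 := by omega
      rw [hg, hh, hk] at e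
      have : G = 2 * (x ^ 2 - x * y + y ^ 2) := by linarith
      omega
    · rw [hg, hh] at h5
      omega
    · rw [hg, hh] at h5
      have hk : k = 2 := by omega
      rw [hg, hh, hk] at e
      have : G = 2 * (x ^ 2 + x * y + y ^ 2) := by linarith
      omega

lemma exists_dvd {p : ℕ} (hp : p.Prime) {D : ℤ} (h : IsSquare ((-D : ℤ) : ZMod p)) :
    ∃ H K : ℤ, (p : ℤ) * K - H ^ 2 = D := by
  have : Fact p.Prime := ⟨hp⟩
  obtain ⟨y, hy⟩ := h
  have h1 : (p : ℤ) ∣ (y.val : ℤ) ^ 2 + D := by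
    rw [← ZMod.intCast_zmod_eq_zero_iff_dvd]
    push_cast
    rw [ZMod.natCast_zmod_val, sq, ← hy]
    push_cast
    ring
  obtain ⟨K, hK⟩ := h1
  exact ⟨y.val, K, by linarith⟩

/-- **Fermat, Euler**: the primes of the form `x² + 2 y²`. -/
theorem prime_iff_two {p : ℕ} (hp : p.Prime) :
    (∃ x y : ℕ, p = x ^ 2 + 2 * y ^ 2) ↔ p = 2 ∨ p % 8 = 1 ∨ p % 8 = 3 := by
  constructor
  · rintro ⟨x, y, h⟩
    by_cases h2 : p = 2
    · exact Or.inl h2
    have hodd : p % 2 = 1 := (hp.eq_two_or_odd).resolve_left h2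
    have e : (p : ℤ) = (x : ℤ) ^ 2 + 2 * (y : ℤ) ^ 2 := by exact_mod_cast h
    have m1 := sq_mod x
    have m2 := sq_mod y
    omega
  · rintro h
    by_cases h2 : p = 2
    · exact ⟨0, 1, by rw [h2]; norm_num⟩
    have h' : p % 8 = 1 ∨ p % 8 = 3 := h.resolve_left h2
    have : Fact p.Prime := ⟨hp⟩
    have hsq : IsSquare ((-2 : ℤ) : ZMod p) := by
      have := (ZMod.exists_sq_eq_neg_two_iff h2).2 h'
      simpa using this
    obtain ⟨H, K, e⟩ := exists_dvd hp hsq
    obtain ⟨x, y, e2⟩ := exists_of_det_two (by exact_mod_cast hp.pos) e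
    refine ⟨x.natAbs, y.natAbs, ?_⟩
    zify
    simpa using e2

/-- **Fermat, Euler**: the primes of the form `x² + 3 y²`. -/
theorem prime_iff_three {p : ℕ} (hp : p.Prime) :
    (∃ x y : ℕ, p = x ^ 2 + 3 * y ^ 2) ↔ p = 3 ∨ p % 3 = 1 := by
  constructor
  · rintro ⟨x, y, h⟩
    by_cases h3 : p = 3
    · exact Or.inl h3
    right
    have hnd : ¬ 3 ∣ p := fun hd => h3 ((Nat.prime_dvd_prime_iff_eq Nat.prime_three hp).1 hd).symm
    have hx : x % 3 = 0 ∨ x % 3 = 1 ∨ x % 3 = 2 := by omega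
    have hx2 : x ^ 2 % 3 = (x % 3) ^ 2 % 3 := by rw [Nat.pow_mod]
    rcases hx with h0 | h0 | h0 <;> rw [h0] at hx2 <;> norm_num at hx2 <;> omega
  · rintro h
    by_cases h3 : p = 3
    · exact ⟨0, 1, by rw [h3]; norm_num⟩
    have h' : p % 3 = 1 := h.resolve_left h3
    have hp2 : p ≠ 2 := by rintro rfl; omega
    have hodd : p % 2 = 1 := (hp.eq_two_or_odd).resolve_left hp2
    have hodd' : Odd p := Nat.odd_iff.2 hodd
    have : Fact p.Prime := ⟨hp⟩
    have hJ3 : J((p : ℤ) | 3) = 1 := by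
      have e : J((p : ℤ) | 3) = J(1 | 3) := by
        apply jacobiSym.mod_left'
        omega
      rw [e, jacobiSym.one_left]
    have hJ : J(-((3 : ℕ) : ℤ) | p) = 1 := by
      rw [jacobiSym.neg _ hodd']
      rcases Nat.odd_mod_four_iff.1 hodd with h4 | h4
      · rw [χ₄_nat_one_mod_four h4, one_mul,
          jacobiSym.quadratic_reciprocity_one_mod_four' (by decide) h4, hJ3]
      · rw [χ₄_nat_three_mod_four h4,
          jacobiSym.quadratic_reciprocity_three_mod_four (by norm_num) h4, hJ3]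
        norm_num
    have hsq : IsSquare ((-3 : ℤ) : ZMod p) := by
      have := ZMod.isSquare_of_jacobiSym_eq_one hJ
      simpa using this
    obtain ⟨H, K, e⟩ := exists_dvd hp hsq
    obtain ⟨x, y, e2⟩ := exists_of_det_three (by exact_mod_cast hp.pos) e (by omega)
    refine ⟨x.natAbs, y.natAbs, ?_⟩
    zify
    simpa using e2

/-- **A prime is a sum of two squares in at most one way**. -/
theorem unique_sq_add_sq {p : ℕ} (hp : p.Prime) {a b c d : ℕ} (h1 : p = a ^ 2 + b ^ 2)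
    (h2 : p = c ^ 2 + d ^ 2) : (a = c ∧ b = d) ∨ (a = d ∧ b = c) := by
  have hns : ∀ r : ℕ, p ≠ r ^ 2 := by
    rintro r rfl
    exact hp.prime.irreducible.not_isSquare (IsSquare.sq r)
  have hpos : ∀ a b : ℕ, p = a ^ 2 + b ^ 2 → 0 < a ∧ 0 < b := by
    intro a b h
    constructor
    · rcases Nat.eq_zero_or_pos a with h0 | h0
      · exact absurd (by rw [h, h0]; ring) (hns b)
      · exact h0
    · rcases Nat.eq_zero_or_pos b with h0 | h0
      · exact absurd (by rw [h, h0]; ring) (hns a)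
      · exact h0
  obtain ⟨ha, hb⟩ := hpos a b h1
  obtain ⟨hc, hd⟩ := hpos c d h2
  have e1 : (p : ℤ) = (a : ℤ) ^ 2 + (b : ℤ) ^ 2 := by exact_mod_cast h1
  have e2 : (p : ℤ) = (c : ℤ) ^ 2 + (d : ℤ) ^ 2 := by exact_mod_cast h2
  have ha' : (0 : ℤ) < a := by exact_mod_cast ha
  have hb' : (0 : ℤ) < b := by exact_mod_cast hb
  have hc' : (0 : ℤ) < c := by exact_mod_cast hc
  have hd' : (0 : ℤ) < d := by exact_mod_cast hd
  have hp' : (0 : ℤ) < p := by exact_mod_cast hp.pos
  have hmul : ((a : ℤ) * d - b * c) * (a * d + b * c) = p * ((a : ℤ) ^ 2 - (c : ℤ) ^ 2) := by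
    linear_combination (c : ℤ) ^ 2 * e1 - (a : ℤ) ^ 2 * e2
  have hdvd : (p : ℤ) ∣ (a * d - b * c) * (a * d + b * c) := ⟨_, hmul⟩
  have id1 : ((a : ℤ) * c + b * d) ^ 2 + (a * d - b * c) ^ 2 = (p : ℤ) ^ 2 := by
    have : (p : ℤ) ^ 2 = ((a : ℤ) ^ 2 + (b : ℤ) ^ 2) * ((c : ℤ) ^ 2 + (d : ℤ) ^ 2) := by
      rw [← e1, ← e2]; ring
    rw [this]; ring
  have id2 : ((a : ℤ) * c - b * d) ^ 2 + (a * d + b * c) ^ 2 = (p : ℤ) ^ 2 := by
    rw [← id1]; ring
  have had : (0 : ℤ) < a * d := mul_pos ha' hd'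
  have hbc : (0 : ℤ) < b * c := mul_pos hb' hc'
  have hle : (a : ℤ) * d + b * c ≤ p := by nlinarith [sq_nonneg ((a : ℤ) * c - b * d)]
  rcases (Nat.prime_iff_prime_int.1 hp).dvd_or_dvd hdvd with h | h
  · -- `a d = b c`
    left
    have h0 : (a : ℤ) * d - b * c = 0 := by
      apply Int.eq_zero_of_abs_lt_dvd h
      rw [abs_lt]
      constructor <;> linarith
    rw [h0] at id1
    have h3 : (a : ℤ) * c + b * d = p := by
      have hac : (0 : ℤ) < a * c + b * d := by positivity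
      nlinarith
    have h4 : (a : ℤ) * p = c * p := by
      rw [← h3]
      have h5 : (a : ℤ) * d = b * c := by linarith
      calc (a : ℤ) * (a * c + b * d) = a ^ 2 * c + b * (a * d) := by ring
        _ = c * (a ^ 2 + b ^ 2) := by rw [h5]; ring
        _ = c * (a * c + b * d) := by rw [← e1, h3]
    have hac : (a : ℤ) = c := mul_right_cancel₀ hp'.ne' h4
    have hac' : a = c := by exact_mod_cast hac
    refine ⟨hac', ?_⟩
    have : (b : ℤ) = d := by
      rw [hac] at h0
      have : (c : ℤ) * (d - b) = 0 := by linarith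
      rcases mul_eq_zero.1 this with h6 | h6
      · omega
      · linarith
    exact_mod_cast this
  · right
    have h3 : (a : ℤ) * d + b * c = p := by
      obtain ⟨t, ht⟩ := h
      have ht0 : 0 < t := by
        by_contra hneg
        push Not at hneg
        nlinarith [mul_nonneg hp'.le (neg_nonneg.2 hneg)]
      nlinarith
    rw [h3] at id2
    have h0 : (a : ℤ) * c - b * d = 0 := by
      have : ((a : ℤ) * c - b * d) ^ 2 = 0 := by linarith
      exact pow_eq_zero_iff two_ne_zero |>.1 this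
    have h4 : (d : ℤ) * p = a * p := by
      rw [← h3]
      have h5 : (b : ℤ) * d = a * c := by linarith
      calc (d : ℤ) * (a * d + b * c) = a * d ^ 2 + c * (b * d) := by ring
        _ = a * (c ^ 2 + d ^ 2) := by rw [h5]; ring
        _ = a * (a * d + b * c) := by rw [← e2, h3]
    have had' : (d : ℤ) = a := mul_right_cancel₀ hp'.ne' h4
    have had'' : a = d := by exact_mod_cast had'.symm
    refine ⟨had'', ?_⟩
    have : (b : ℤ) = c := by
      rw [had'] at h0
      have : (a : ℤ) * (c - b) = 0 := by linarith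
      rcases mul_eq_zero.1 this with h6 | h6
      · omega
      · linarith
    exact_mod_cast this

end Fermat.Agent.Cor.Ferm
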